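/-
S41 / block PD, leaves DICT-a (helper600): tools.
* coboundary lemmas for permutations of order 2 and 3 (no finiteness, any abelian group `A`);
* `indc` is a cocycle representing `φ`; coboundaries; cocycles on `SL(2,ℤ)` are determined by
  their values on `S` and `S * T`.
Independent of `Spec/PD.lean`.
-/
import Fermat.Agent.S21.H585.LowerBound

set_option autoImplicit false

namespace Fermat.Agent.S41.H600

open Matrix ModularGroup
open scoped MatrixGroups
open Fermat.Agent.S21.H585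

section Combinatorics

variable {X : Type*} {A : Type*} [AddCommGroup A]

/-- A function `a` with `a + a ∘ σ = 0` (`σ² = 1`) vanishing at the fixed points of `σ` is of the
form `n ∘ σ - n`. -/
theorem exists_cobd_of_order_two (σ : X → X) (hσ : ∀ x, σ (σ x) = x) (a : X → A)
    (ha : ∀ x, a x + a (σ x) = 0) (hfix : ∀ x, σ x = x → a x = 0) :
    ∃ n : X → A, ∀ x, a x = n (σ x) - n x := by
  classical
  let s : Setoid X :=
    { r := fun x y => y = x ∨ y = σ x
      iseqv :=
        { refl := fun x => Or.inl rfl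
          symm := by
            rintro x y (rfl | rfl)
            · exact Or.inl rfl
            · exact Or.inr (hσ x).symm
          trans := by
            rintro x y z (rfl | rfl) (rfl | rfl)
            · exact Or.inl rfl
            · exact Or.inr rfl
            · exact Or.inr rfl
            · exact Or.inl (hσ x) } }
  let rep : X → X := fun x => (Quotient.mk s x).out
  have hrep : ∀ x, x = rep x ∨ x = σ (rep x) := fun x =>
    Quotient.exact (Quotient.out_eq (Quotient.mk s x))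
  have hrepσ : ∀ x, rep (σ x) = rep x := fun x =>
    congrArg Quotient.out (Quotient.sound (show s.r (σ x) x from Or.inr (hσ x).symm))
  refine ⟨fun x => if x = rep x then 0 else a (rep x), fun x => ?_⟩
  show a x = (if σ x = rep (σ x) then 0 else a (rep (σ x))) - (if x = rep x then 0 else a (rep x))
  rw [hrepσ]
  by_cases h1 : x = rep x
  · rw [if_pos h1, sub_zero]
    by_cases h2 : σ x = x
    · rw [if_pos (h2.trans h1), hfix x h2]
    · rw [if_neg (fun h => h2 (h.trans h1.symm)), ← h1]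
  · have h3 : x = σ (rep x) := (hrep x).resolve_left h1
    have h4 : σ x = rep x := by rw [h3, hσ, ← h3]
    rw [if_pos h4, if_neg h1, zero_sub]
    have := ha (rep x)
    rw [← h3] at this
    exact eq_neg_of_add_eq_zero_right this

/-- A function `c` with `c + c ∘ υ + c ∘ υ² = 0` (`υ³ = 1`) vanishing at the fixed points of `υ` is
of the form `m ∘ υ - m`. -/
theorem exists_cobd_of_order_three (υ : X → X) (hυ : ∀ x, υ (υ (υ x)) = x) (c : X → A)
    (hc : ∀ x, c x + c (υ x) + c (υ (υ x)) = 0) (hfix : ∀ x, υ x = x → c x = 0) :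
    ∃ m : X → A, ∀ x, c x = m (υ x) - m x := by
  classical
  let s : Setoid X :=
    { r := fun x y => y = x ∨ y = υ x ∨ y = υ (υ x)
      iseqv :=
        { refl := fun x => Or.inl rfl
          symm := by
            rintro x y (rfl | rfl | rfl)
            · exact Or.inl rfl
            · exact Or.inr (Or.inr (hυ x).symm)
            · exact Or.inr (Or.inl (hυ x).symm)
          trans := by
            rintro x y z (rfl | rfl | rfl) (rfl | rfl | rfl)
            · exact Or.inl rfl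
            · exact Or.inr (Or.inl rfl)
            · exact Or.inr (Or.inr rfl)
            · exact Or.inr (Or.inl rfl)
            · exact Or.inr (Or.inr rfl)
            · exact Or.inl (hυ x)
            · exact Or.inr (Or.inr rfl)
            · exact Or.inl (hυ x)
            · exact Or.inr (Or.inl (by rw [hυ])) } }
  let rep : X → X := fun x => (Quotient.mk s x).out
  have hrep : ∀ x, x = rep x ∨ x = υ (rep x) ∨ x = υ (υ (rep x)) := fun x =>
    Quotient.exact (Quotient.out_eq (Quotient.mk s x))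
  have hrepυ : ∀ x, rep (υ x) = rep x := fun x =>
    congrArg Quotient.out
      (Quotient.sound (show s.r (υ x) x from Or.inr (Or.inr (hυ x).symm)))
  -- fixed points
  have hfix1 : ∀ r, υ (υ r) = r → υ r = r := fun r h => by
    have := hυ r
    rw [h] at this
    exact this
  have hfix2 : ∀ r, υ (υ r) = υ r → υ r = r := fun r h => by
    have h1 := hυ r
    rw [h, h] at h1
    exact h1
  refine ⟨fun x => if x = rep x then 0 else if x = υ (rep x) then c (rep x)
    else c (rep x) + c (υ (rep x)), fun x => ?_⟩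
  show c x = (if υ x = rep (υ x) then 0 else if υ x = υ (rep (υ x)) then c (rep (υ x))
      else c (rep (υ x)) + c (υ (rep (υ x)))) -
    (if x = rep x then 0 else if x = υ (rep x) then c (rep x) else c (rep x) + c (υ (rep x)))
  rw [hrepυ]
  generalize hr : rep x = r
  have hx := hrep x
  rw [hr] at hx
  by_cases hf : υ r = r
  · -- the orbit is a point
    have hxr : x = r := by
      rcases hx with h | h | h
      · exact h
      · rw [h, hf]
      · rw [h, hf, hf]
    subst hxr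
    rw [if_pos hf, if_pos rfl, sub_zero, hfix x hf]
  · have h01 : ¬ υ r = r := hf
    have h02 : ¬ υ (υ r) = r := fun h => hf (hfix1 r h)
    have h12 : ¬ υ (υ r) = υ r := fun h => hf (hfix2 r h)
    rcases hx with h | h | h
    · subst h
      rw [if_neg h01, if_pos rfl, if_pos rfl, sub_zero]
    · subst h
      rw [if_neg h02, if_neg h12, if_neg h01, if_pos rfl]
      abel
    · subst h
      rw [hυ, if_pos rfl, if_neg h02, if_neg h12, zero_sub]
      have := hc r
      rw [add_comm] at this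
      exact eq_neg_of_add_eq_zero_left this

end Combinatorics

section Cocycle

variable {G : Type*} [Group G] {X : Type*} [MulAction G X] {A : Type*} [AddCommGroup A]

/-- Coboundaries are cocycles. -/
lemma isCocycle_cobd (n : X → A) : IsCocycle (fun (g : G) (x : X) => n (g • x) - n x) := by
  intro g h x
  show n ((g * h) • x) - n x = (n (h • x) - n x) + (n (g • h • x) - n (h • x))
  rw [mul_smul]
  abel

lemma isCocycle_add {f f' : G → X → A} (hf : IsCocycle f) (hf' : IsCocycle f') :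
    IsCocycle (fun g x => f g x + f' g x) := by
  intro g h x
  show f (g * h) x + f' (g * h) x = (f h x + f' h x) + (f g (h • x) + f' g (h • x))
  rw [hf, hf']
  abel

lemma isCocycle_sub {f f' : G → X → A} (hf : IsCocycle f) (hf' : IsCocycle f') :
    IsCocycle (fun g x => f g x - f' g x) := by
  intro g h x
  show f (g * h) x - f' (g * h) x = (f h x - f' h x) + (f g (h • x) - f' g (h • x))
  rw [hf, hf']
  abel

lemma isCocycle_map {B : Type*} [AddCommGroup B] (π : A →+ B) {f : G → X → A}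
    (hf : IsCocycle f) : IsCocycle (fun g x => π (f g x)) := by
  intro g h x
  show π (f (g * h) x) = π (f h x) + π (f g (h • x))
  rw [hf, map_add]

end Cocycle

section SL2

variable {A : Type*} [AddCommGroup A]

lemma closure_S_ST : Subgroup.closure ({S, S * T} : Set SL(2, ℤ)) = ⊤ := by
  rw [eq_top_iff, ← _root_.SpecialLinearGroup.SL2Z_generators, Subgroup.closure_le]
  rintro x (rfl | rfl)
  · exact Subgroup.subset_closure (by simp)
  · have h1 : S ∈ Subgroup.closure ({S, S * T} : Set SL(2, ℤ)) :=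
      Subgroup.subset_closure (by simp)
    have h2 : S * T ∈ Subgroup.closure ({S, S * T} : Set SL(2, ℤ)) :=
      Subgroup.subset_closure (by simp)
    have h3 := mul_mem (inv_mem h1) h2
    rwa [inv_mul_cancel_left] at h3

/-- Two cocycles on `SL(2, ℤ)` which agree on `S` and `S * T` are equal. -/
theorem isCocycle_ext_S_ST {X : Type*} [MulAction SL(2, ℤ) X] {f f' : SL(2, ℤ) → X → A}
    (hf : IsCocycle f) (hf' : IsCocycle f') (hS : ∀ x, f S x = f' S x)
    (hU : ∀ x, f (S * T) x = f' (S * T) x) (g : SL(2, ℤ)) (x : X) : f g x = f' g x := by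
  have hg : g ∈ Subgroup.closure ({S, S * T} : Set SL(2, ℤ)) := by
    rw [closure_S_ST]; trivial
  induction hg using Subgroup.closure_induction generalizing x with
  | mem y hy =>
    rcases hy with rfl | rfl
    · exact hS x
    · exact hU x
  | one => rw [hf.map_one, hf'.map_one]
  | mul g h _ _ hg hh => rw [hf, hf', hg, hh]
  | inv g _ hg => rw [hf.map_inv', hf'.map_inv', hg]

variable (Γ : Subgroup SL(2, ℤ))

/-- The induced cochain of a homomorphism is a cocycle. -/
theorem isCocycle_indc (φ : Additive Γ →+ A) : IsCocycle (indc Γ φ) := by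
  intro g h x
  have key : (⟨(Quotient.out ((g * h) • x) : SL(2, ℤ))⁻¹ * (g * h) * Quotient.out x,
      sec_mem Γ (g * h) x⟩ : Γ) =
      ⟨(Quotient.out (g • h • x) : SL(2, ℤ))⁻¹ * g * Quotient.out (h • x),
        sec_mem Γ g (h • x)⟩ *
      ⟨(Quotient.out (h • x) : SL(2, ℤ))⁻¹ * h * Quotient.out x, sec_mem Γ h x⟩ := by
    apply Subtype.ext
    rw [Subgroup.coe_mul]
    simp only [mul_smul]
    group
  show φ (Additive.ofMul _) = φ (Additive.ofMul _) + φ (Additive.ofMul _)
  rw [key, ofMul_mul, map_add, add_comm]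

variable {Γ}

lemma indc_eq_of_eq (φ : Additive Γ →+ A) (g : SL(2, ℤ)) (x : SL(2, ℤ) ⧸ Γ) (γ : Γ)
    (h : (γ : SL(2, ℤ)) = (Quotient.out (g • x) : SL(2, ℤ))⁻¹ * g * Quotient.out x) :
    indc Γ φ g x = φ (Additive.ofMul γ) := by
  unfold indc
  exact congrArg (fun t : Γ => φ (Additive.ofMul t)) (Subtype.ext h.symm)

/-- At a fixed point `x` of `g`, `indc φ g x` is the value of `φ` at a conjugate of `g`. -/
lemma indc_fixed (φ : Additive Γ →+ A) (g : SL(2, ℤ)) (x : SL(2, ℤ) ⧸ Γ) (hfix : g • x = x) :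
    ∃ γ : Γ, (γ : SL(2, ℤ)) = (Quotient.out x : SL(2, ℤ))⁻¹ * g * Quotient.out x ∧
      indc Γ φ g x = φ (Additive.ofMul γ) := by
  have hmem := sec_mem Γ g x
  rw [hfix] at hmem
  refine ⟨⟨_, hmem⟩, rfl, indc_eq_of_eq φ g x ⟨_, hmem⟩ ?_⟩
  show (Quotient.out x : SL(2, ℤ))⁻¹ * g * Quotient.out x = _
  rw [hfix]

lemma isOfFinOrder_of_conj {g : SL(2, ℤ)} (hg : IsOfFinOrder g) (o : SL(2, ℤ)) (γ : Γ)
    (h : (γ : SL(2, ℤ)) = o⁻¹ * g * o) : IsOfFinOrder γ := by
  have h1 : IsOfFinOrder (γ : SL(2, ℤ)) := by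
    rw [h]
    have := (MulAut.conj o⁻¹).toMonoidHom.isOfFinOrder hg
    simpa using this
  exact (Submonoid.isOfFinOrder_coe (H := Γ.toSubmonoid) (x := γ)).1 h1

lemma isOfFinOrder_neg_one : IsOfFinOrder (-1 : SL(2, ℤ)) :=
  isOfFinOrder_iff_pow_eq_one.mpr ⟨2, by norm_num, by rw [pow_two]; simp⟩

lemma isOfFinOrder_S : IsOfFinOrder (S : SL(2, ℤ)) :=
  isOfFinOrder_iff_pow_eq_one.mpr ⟨4, by norm_num, by
    have : (S : SL(2, ℤ)) ^ 4 = (S * S) * (S * S) := by
      rw [show (4 : ℕ) = 2 + 2 from rfl, pow_add, pow_two]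
    rw [this, S_mul_S_eq_neg_one]; simp⟩

lemma isOfFinOrder_ST : IsOfFinOrder (S * T : SL(2, ℤ)) :=
  isOfFinOrder_iff_pow_eq_one.mpr ⟨6, by norm_num, by
    have : (S * T : SL(2, ℤ)) ^ 6 =
        ((S * T) * (S * T) * (S * T)) * ((S * T) * (S * T) * (S * T)) := by
      rw [show (6 : ℕ) = 3 + 3 from rfl, pow_add, pow_succ, pow_two]
    rw [this, ST_cube_eq_neg_one]; simp⟩

lemma indc_basePt (φ : Additive Γ →+ A) (γ : Γ) :
    indc Γ φ (γ : SL(2, ℤ)) (basePt Γ) = φ (Additive.ofMul γ) := by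
  obtain ⟨δ, hδ, hind⟩ := indc_fixed φ (γ : SL(2, ℤ)) (basePt Γ) (smul_basePt_of_mem Γ γ.2)
  rw [hind]
  have ho : (Quotient.out (basePt Γ) : SL(2, ℤ)) ∈ Γ := by
    have h1 : ((Quotient.out (basePt Γ) : SL(2, ℤ)) : SL(2, ℤ) ⧸ Γ) = ((1 : SL(2, ℤ)) : SL(2, ℤ) ⧸ Γ) :=
      QuotientGroup.out_eq' _
    rw [QuotientGroup.eq, mul_one] at h1
    simpa using inv_mem h1
  have hδ' : δ = (⟨_, ho⟩ : Γ)⁻¹ * γ * ⟨_, ho⟩ := Subtype.ext hδ
  rw [hδ', ofMul_mul, ofMul_mul, ofMul_inv, map_add, map_add, map_neg]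
  abel

/-- **(D1), core form.** A torsion-trivial homomorphism is represented by a normalised cocycle. -/
theorem exists_manin_cocycle (hneg : (-1 : SL(2, ℤ)) ∈ Γ) (φ : Additive Γ →+ A)
    (htors : ∀ γ : Γ, IsOfFinOrder γ → φ (Additive.ofMul γ) = 0) :
    ∃ (m : SL(2, ℤ) ⧸ Γ → A) (f : SL(2, ℤ) → SL(2, ℤ) ⧸ Γ → A),
      IsCocycle f ∧ (∀ x, f S x = 0) ∧ (∀ x, f (S * T) x = m ((S * T) • x) - m x) ∧
      ∀ γ : Γ, φ (Additive.ofMul γ) = f (γ : SL(2, ℤ)) (basePt Γ) := by
  have hn := neg_one_smul_quot hneg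
  have hf₀ := isCocycle_indc Γ φ
  -- values at fixed points of torsion elements
  have hfixval : ∀ (g : SL(2, ℤ)), IsOfFinOrder g → ∀ x : SL(2, ℤ) ⧸ Γ, g • x = x →
      indc Γ φ g x = 0 := by
    intro g hg x hx
    obtain ⟨γ, hγ, hind⟩ := indc_fixed φ g x hx
    rw [hind]
    exact htors γ (isOfFinOrder_of_conj hg _ γ hγ)
  have hneg0 : ∀ x, indc Γ φ (-1) x = 0 := fun x => hfixval _ isOfFinOrder_neg_one x (hn x)
  -- normalisation at `S`
  have hSS : ∀ x : SL(2, ℤ) ⧸ Γ, S • S • x = x := fun x => by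
    rw [smul_smul, S_mul_S_eq_neg_one, hn]
  have ha : ∀ x, indc Γ φ S x + indc Γ φ S (S • x) = 0 := fun x => by
    rw [← hf₀ S S x, S_mul_S_eq_neg_one, hneg0]
  obtain ⟨n₁, hn₁⟩ := exists_cobd_of_order_two (fun x : SL(2, ℤ) ⧸ Γ => S • x) hSS
    (indc Γ φ S) ha (fun x hx => hfixval S isOfFinOrder_S x hx)
  set f₁ : SL(2, ℤ) → SL(2, ℤ) ⧸ Γ → A := fun g x => indc Γ φ g x - (n₁ (g • x) - n₁ x) with hf₁def
  have hf₁ : IsCocycle f₁ := isCocycle_sub hf₀ (isCocycle_cobd n₁)
  have hf₁S : ∀ x, f₁ S x = 0 := fun x => by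
    show indc Γ φ S x - (n₁ (S • x) - n₁ x) = 0
    rw [hn₁ x, sub_self]
  have hf₁neg : ∀ x, f₁ (-1) x = 0 := fun x => by
    show indc Γ φ (-1) x - (n₁ ((-1 : SL(2, ℤ)) • x) - n₁ x) = 0
    rw [hneg0, hn, sub_self, sub_zero]
  -- normalisation at `S * T`
  have hUUU : ∀ x : SL(2, ℤ) ⧸ Γ, (S * T) • (S * T) • (S * T) • x = x := fun x => by
    rw [smul_smul, smul_smul, ST_cube_eq_neg_one, hn]
  have hc : ∀ x, f₁ (S * T) x + f₁ (S * T) ((S * T) • x) + f₁ (S * T) ((S * T) • (S * T) • x)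
      = 0 := fun x => by
    have h1 := hf₁ ((S * T) * (S * T)) (S * T) x
    rw [hf₁ (S * T) (S * T) ((S * T) • x), ST_cube_eq_neg_one, hf₁neg] at h1
    rw [add_assoc]
    exact h1.symm
  have hcfix : ∀ x : SL(2, ℤ) ⧸ Γ, (S * T) • x = x → f₁ (S * T) x = 0 := fun x hx => by
    show indc Γ φ (S * T) x - (n₁ ((S * T) • x) - n₁ x) = 0
    rw [hfixval _ isOfFinOrder_ST x hx, hx, sub_self, sub_zero]
  obtain ⟨m, hm⟩ := exists_cobd_of_order_three (fun x : SL(2, ℤ) ⧸ Γ => (S * T) • x) hUUU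
    (f₁ (S * T)) hc hcfix
  refine ⟨m, f₁, hf₁, hf₁S, hm, fun γ => ?_⟩
  show φ (Additive.ofMul γ) = indc Γ φ γ (basePt Γ) - (n₁ ((γ : SL(2, ℤ)) • basePt Γ) - n₁ (basePt Γ))
  rw [indc_basePt, smul_basePt_of_mem Γ γ.2, sub_self, sub_zero]

/-- **(D2), core form.** A normalised cocycle representing `0` has Manin symbol in
`M^S + M^{ST}`. -/
theorem invariantSum_of_hom_eq_zero {f : SL(2, ℤ) → SL(2, ℤ) ⧸ Γ → A} (hf : IsCocycle f)
    (hS : ∀ x, f S x = 0) (m : SL(2, ℤ) ⧸ Γ → A)
    (hU : ∀ x, f (S * T) x = m ((S * T) • x) - m x)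
    (hφ : ∀ γ : Γ, f (γ : SL(2, ℤ)) (basePt Γ) = 0) :
    ∃ n₁ n₂ : SL(2, ℤ) ⧸ Γ → A, (∀ x, n₁ (S • x) = n₁ x) ∧
      (∀ x, n₂ ((S * T) • x) = n₂ x) ∧ m = n₁ + n₂ := by
  have hcob : ∀ g x, f g x = f (Quotient.out (g • x)) (basePt Γ) - f (Quotient.out x) (basePt Γ) := by
    intro g x
    have h1 := hf.eq_indc_add g x
    have h2 : indc Γ (homOfCocycle Γ f hf) g x = 0 := by
      unfold indc
      rw [homOfCocycle_apply]
      exact hφ _
    rw [h2, zero_add] at h1
    exact h1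
  refine ⟨fun x => f (Quotient.out x) (basePt Γ), fun x => m x - f (Quotient.out x) (basePt Γ),
    fun x => ?_, fun x => ?_, ?_⟩
  · have := hcob S x
    rw [hS] at this
    exact (sub_eq_zero.mp this.symm)
  · have h1 := hcob (S * T) x
    rw [hU] at h1
    show m ((S * T) • x) - f (Quotient.out ((S * T) • x)) (basePt Γ) =
      m x - f (Quotient.out x) (basePt Γ)
    rw [sub_eq_sub_iff_add_eq_add]
    rw [sub_eq_sub_iff_add_eq_add] at h1
    rw [h1]
    abel
  · funext x
    show m x = f (Quotient.out x) (basePt Γ) + (m x - f (Quotient.out x) (basePt Γ))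
    abel

/-- **(D2'), core form.** A normalised cocycle with Manin symbol in `M^S + M^{ST}` represents
`0`. -/
theorem hom_eq_zero_of_invariantSum {f : SL(2, ℤ) → SL(2, ℤ) ⧸ Γ → A} (hf : IsCocycle f)
    (hS : ∀ x, f S x = 0) (m : SL(2, ℤ) ⧸ Γ → A)
    (hU : ∀ x, f (S * T) x = m ((S * T) • x) - m x)
    (n₁ n₂ : SL(2, ℤ) ⧸ Γ → A) (h₁ : ∀ x, n₁ (S • x) = n₁ x)
    (h₂ : ∀ x, n₂ ((S * T) • x) = n₂ x) (hm : m = n₁ + n₂) (γ : Γ) :
    f (γ : SL(2, ℤ)) (basePt Γ) = 0 := by
  have hd : IsCocycle (fun (g : SL(2, ℤ)) (x : SL(2, ℤ) ⧸ Γ) => n₁ (g • x) - n₁ x) :=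
    isCocycle_cobd n₁
  have key := isCocycle_ext_S_ST hf hd
    (fun x => by
      show f S x = n₁ (S • x) - n₁ x
      rw [hS, h₁, sub_self])
    (fun x => by
      show f (S * T) x = n₁ ((S * T) • x) - n₁ x
      rw [hU, hm]
      show n₁ ((S * T) • x) + n₂ ((S * T) • x) - (n₁ x + n₂ x) = _
      rw [h₂]
      abel)
    (γ : SL(2, ℤ)) (basePt Γ)
  rw [key]
  show n₁ ((γ : SL(2, ℤ)) • basePt Γ) - n₁ (basePt Γ) = 0
  rw [smul_basePt_of_mem Γ γ.2, sub_self]

end SL2

end Fermat.Agent.S41.H600
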