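/-
S41 / block PD, leaves DICT-a (helper600): the dictionary `Hom(Γ, A)` ↔ Manin symbols.
* `maninRepExists    : Spec.ManinRepExistsStatement`     (D1)
* `maninRepZero      : Spec.ManinRepZeroStatement`       (D2)
* `maninRepInvariant : Spec.ManinRepInvariantStatement`  (D2')
* `maninRepLinear    : Spec.ManinRepLinearStatement`     (D2'')
-/
import Fermat.Agent.S41.Spec.PD
import Fermat.Agent.S41.H600.DictCore

set_option autoImplicit false

namespace Fermat.Agent.S41.H600

open Matrix ModularGroup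
open scoped MatrixGroups
open Fermat.Agent.S21.H585

universe u

/-- (D1) every torsion-trivial class has a Manin representative. -/
theorem maninRepExists : Spec.ManinRepExistsStatement.{u} := by
  intro Γ _ hneg A _ φ htors
  obtain ⟨m, f, hf, hS, hU, hφ⟩ := exists_manin_cocycle hneg φ htors
  exact ⟨m, f, ⟨hf, hS, hU⟩, hφ⟩

/-- (D2) a Manin symbol representing `0` lies in `M^S + M^{ST}`. -/
theorem maninRepZero : Spec.ManinRepZeroStatement.{u} := by
  rintro Γ _ _ A _ m ⟨f, ⟨hf, hS, hU⟩, hφ⟩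
  exact invariantSum_of_hom_eq_zero (Γ := Γ) hf hS m hU (fun γ => (hφ γ).symm)

/-- (D2') a Manin symbol in `M^S + M^{ST}` represents only `0`. -/
theorem maninRepInvariant : Spec.ManinRepInvariantStatement.{u} := by
  rintro Γ _ _ A _ φ m ⟨f, ⟨hf, hS, hU⟩, hφ⟩ ⟨n₁, n₂, h₁, h₂, hm⟩
  apply AddMonoidHom.ext
  intro γ
  have := hom_eq_zero_of_invariantSum (Γ := Γ) hf hS m hU n₁ n₂ h₁ h₂ hm (Additive.toMul γ)
  rw [AddMonoidHom.zero_apply, ← this]
  exact hφ (Additive.toMul γ)

/-- (D2'') linearity and naturality of `IsManinRep`. -/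
theorem maninRepLinear : Spec.ManinRepLinearStatement.{u} := by
  rintro Γ A B _ _ π φ φ' m m' ⟨f, ⟨hf, hS, hU⟩, hφ⟩ ⟨f', ⟨hf', hS', hU'⟩, hφ'⟩
  refine ⟨⟨fun g x => f g x + f' g x, ⟨isCocycle_add hf hf', fun x => ?_, fun x => ?_⟩,
      fun γ => ?_⟩,
    ⟨fun g x => f g x - f' g x, ⟨isCocycle_sub hf hf', fun x => ?_, fun x => ?_⟩, fun γ => ?_⟩,
    ⟨fun g x => π (f g x), ⟨isCocycle_map π hf, fun x => ?_, fun x => ?_⟩, fun γ => ?_⟩⟩
  · show f S x + f' S x = 0
    rw [hS, hS', add_zero]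
  · show f (S * T) x + f' (S * T) x = (m + m') ((S * T) • x) - (m + m') x
    rw [hU, hU', Pi.add_apply, Pi.add_apply]
    abel
  · show φ (Additive.ofMul γ) + φ' (Additive.ofMul γ) = _
    rw [hφ, hφ']
  · show f S x - f' S x = 0
    rw [hS, hS', sub_zero]
  · show f (S * T) x - f' (S * T) x = (m - m') ((S * T) • x) - (m - m') x
    rw [hU, hU', Pi.sub_apply, Pi.sub_apply]
    abel
  · show φ (Additive.ofMul γ) - φ' (Additive.ofMul γ) = _
    rw [hφ, hφ']
  · show π (f S x) = 0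
    rw [hS, map_zero]
  · show π (f (S * T) x) = π (m ((S * T) • x)) - π (m x)
    rw [hU, map_sub]
  · show π (φ (Additive.ofMul γ)) = _
    rw [hφ]

end Fermat.Agent.S41.H600
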